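import Fermat.Agent.LevelRaising.Congruence
import Fermat.Agent.LevelRaising.Symbols.Cross
import Mathlib.NumberTheory.ModularForms.CongruenceSubgroups

/-!
# Functions on cusps which are invariant up to constants
-/

set_option autoImplicit false

noncomputable section

namespace Fermat.Agent.LevelRaising

open CongruenceSubgroup Matrix
open scoped MatrixGroups

/-- `SL(2, ℤ) → SL(2, ℚ)` -/
abbrev intSL : SL(2, ℤ) →* SL(2, ℚ) := slMap (Int.castRingHom ℚ)

/-- the action on vectors -/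
def actS (g : SL(2, ℚ)) (x : Fin 2 → ℚ) : Fin 2 → ℚ := (g : Matrix (Fin 2) (Fin 2) ℚ) *ᵥ x

theorem actS_mul (g h : SL(2, ℚ)) (x : Fin 2 → ℚ) : actS (g * h) x = actS g (actS h x) := by
  simp [actS, Matrix.mulVec_mulVec]

theorem actS_one (x : Fin 2 → ℚ) : actS 1 x = x := by simp [actS]

theorem actS_smul (g : SL(2, ℚ)) (c : ℚ) (x : Fin 2 → ℚ) : actS g (c • x) = c • actS g x := by
  simp [actS, Matrix.mulVec_smul]

theorem actS_ne_zero (g : SL(2, ℚ)) {x : Fin 2 → ℚ} (hx : x ≠ 0) : actS g x ≠ 0 := fun h => hx <| by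
  have e : actS g⁻¹ (actS g x) = x := by rw [← actS_mul, inv_mul_cancel, actS_one]
  rw [← e, h]; simp [actS]

theorem act_ne_zero (g : SL(2, ℤ)) {x : Fin 2 → ℚ} (hx : x ≠ 0) : act g x ≠ 0 :=
  actS_ne_zero (intSL g) hx

theorem actM_alpha_ne_zero {q : ℕ} (hq : q ≠ 0) {x : Fin 2 → ℚ} (hx : x ≠ 0) :
    (!![(q : ℚ), 0; 0, 1] *ᵥ x) ≠ 0 := fun h => hx <| by
  have h0 := congrFun h 0
  have h1 := congrFun h 1
  simp [Matrix.mulVec, dotProduct, Fin.sum_univ_two, hq] at h0 h1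
  ext i; fin_cases i <;> simp [h0, h1]

variable {A : Type*} [AddCommGroup A]

/-- A function on cusps: invariance under scaling. -/
def IsCuspFun (ψ : (Fin 2 → ℚ) → A) : Prop :=
  ∀ (c : ℚ) (x : Fin 2 → ℚ), c ≠ 0 → x ≠ 0 → ψ (c • x) = ψ x

/-- elements leaving `ψ` invariant up to a constant -/
def quasiGroup (ψ : (Fin 2 → ℚ) → A) : Subgroup SL(2, ℚ) where
  carrier := {g | ∀ x y, x ≠ 0 → y ≠ 0 → ψ (actS g x) - ψ (actS g y) = ψ x - ψ y}
  one_mem' := fun x y _ _ => by simp [actS_one]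
  mul_mem' {g h} hg hh := fun x y hx hy => by
    rw [actS_mul, actS_mul, hg _ _ (actS_ne_zero h hx) (actS_ne_zero h hy), hh x y hx hy]
  inv_mem' {g} hg := fun x y hx hy => by
    have := hg _ _ (actS_ne_zero g⁻¹ hx) (actS_ne_zero g⁻¹ hy)
    rw [← actS_mul, ← actS_mul, mul_inv_cancel, actS_one, actS_one] at this
    exact this.symm

theorem basisVec_ne_zero : (![1, 0] : Fin 2 → ℚ) ≠ 0 := fun h => by simpa using congrFun h 0

/-- the constant attached to an element of `quasiGroup` -/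
def quasiHom (ψ : (Fin 2 → ℚ) → A) : quasiGroup ψ →* Multiplicative A where
  toFun g := Multiplicative.ofAdd (ψ (actS g.1 ![1, 0]) - ψ ![1, 0])
  map_one' := by simp [actS_one]
  map_mul' g h := by
    apply Multiplicative.toAdd.injective
    simp only [toAdd_ofAdd, toAdd_mul, Subgroup.coe_mul, actS_mul]
    have := g.2 _ _ (actS_ne_zero h.1 basisVec_ne_zero) basisVec_ne_zero
    rw [sub_eq_sub_iff_sub_eq_sub] at this
    rw [← this]; abel

theorem quasiHom_apply (ψ : (Fin 2 → ℚ) → A) (g : quasiGroup ψ) {x : Fin 2 → ℚ} (hx : x ≠ 0) :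
    ψ (actS g.1 x) = ψ x + (quasiHom ψ g).toAdd := by
  have := g.2 x _ hx basisVec_ne_zero
  rw [sub_eq_sub_iff_sub_eq_sub] at this
  show ψ _ = ψ x + (ψ _ - ψ _)
  rw [← this]; abel

theorem quasiHom_mem (ψ : (Fin 2 → ℚ) → A) {g : SL(2, ℚ)} (c : A)
    (h : ∀ x, x ≠ 0 → ψ (actS g x) = ψ x + c) :
    ∃ hg : g ∈ quasiGroup ψ, quasiHom ψ ⟨g, hg⟩ = Multiplicative.ofAdd c := by
  refine ⟨fun x y hx hy => by rw [h x hx, h y hy]; abel, ?_⟩
  show Multiplicative.ofAdd (_ - _) = _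
  rw [h _ basisVec_ne_zero, add_sub_cancel_left]

/-- If `φ = e • ψ ∘ diag(q, 1) + const`, translations of `ψ` by integers give translations of `φ`
by multiples of `1/q`. -/
theorem upr_inv_mem_quasiGroup {q : ℕ} (hq : q ≠ 0) (φ ψ : (Fin 2 → ℚ) → A) (e : ℤ) (c : A)
    (h : ∀ x, x ≠ 0 → φ x = e • ψ (!![(q : ℚ), 0; 0, 1] *ᵥ x) + c)
    (hU : intSL (upr 1) ∈ quasiGroup ψ) : upr ((q : ℚ)⁻¹) ∈ quasiGroup φ := by
  intro x y hx hy
  have key : ∀ z, !![(q : ℚ), 0; 0, 1] *ᵥ actS (upr ((q : ℚ)⁻¹)) z =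
      actS (intSL (upr 1)) (!![(q : ℚ), 0; 0, 1] *ᵥ z) := fun z => by
    rw [actS, actS, slMap_upr, Matrix.mulVec_mulVec, Matrix.mulVec_mulVec]
    congr 1
    ext i j
    fin_cases i <;> fin_cases j <;> simp [upr, Matrix.mul_apply, Fin.sum_univ_two, hq]
  rw [h _ (actS_ne_zero _ hx), h _ (actS_ne_zero _ hy), h x hx, h y hy, key, key,
    add_sub_add_right_eq_sub, add_sub_add_right_eq_sub, ← smul_sub, ← smul_sub,
    hU _ _ (actM_alpha_ne_zero hq hx) (actM_alpha_ne_zero hq hy)]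

section Away

variable {q N : ℕ}

/-- `ℤ[1/q] → ℚ` -/
def zqToRat (hq : q ≠ 0) : Zq q →+* ℚ :=
  IsLocalization.Away.lift (q : ℤ) (g := Int.castRingHom ℚ) (by simp [isUnit_iff_ne_zero, hq])

theorem slMap_zqToRat_intSL (hq : q ≠ 0) (γ : SL(2, ℤ)) :
    slMap (zqToRat hq) (slMap (Int.castRingHom (Zq q)) γ) = intSL γ := by
  apply sl_ext <;> simp [slMap_apply]

theorem dia_mul (u v : (Zq q)ˣ) : dia (u * v) = dia u * dia v := by
  apply sl_ext <;> simp [mul_apply00, mul_apply01, mul_apply10, mul_apply11, mul_comm]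

/-- `dia` as a homomorphism -/
def diaHom : (Zq q)ˣ →* SL(2, Zq q) where
  toFun := dia
  map_one' := by apply sl_ext <;> simp
  map_mul' := dia_mul

/-- `Γ₀(N)` and a translation by `1/q` generate `Γ₀(N)` over `ℤ[1/q]`. -/
theorem gamma0Away_le (hq : q.Prime) (hqN : ¬ q ∣ N) (H : Subgroup SL(2, Zq q))
    (hΓ : ∀ γ ∈ Gamma0 N, slMap (Int.castRingHom (Zq q)) γ ∈ H)
    (hU : upr (((qUnit q)⁻¹ : (Zq q)ˣ) : Zq q) ∈ H) : gamma0Away q N ≤ H := by
  have hqi : Prime (q : ℤ) := Nat.prime_iff_prime_int.mp hq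
  have hcop : IsCoprime (q : ℤ) (N : ℤ) :=
    Int.isCoprime_iff_nat_coprime.mpr (by simpa using hq.coprime_iff_not_dvd.mpr hqN)
  set w : Zq q := (((qUnit q)⁻¹ : (Zq q)ˣ) : Zq q) with hw
  have hqw : (q : Zq q) * w = 1 := by rw [hw, ← qUnit_val (q := q), Units.mul_inv]
  have hintU : ∀ k : ℤ, upr ((k : Zq q) * w) ∈ H := by
    intro k
    induction k using Int.induction_on with
    | zero => simp
    | succ k ih => push_cast at ih ⊢; rw [add_mul, one_mul, upr_add]; exact H.mul_mem ih hU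
    | pred k ih =>
      push_cast at ih ⊢
      rw [sub_mul, one_mul, sub_eq_add_neg, upr_add, upr_neg]
      exact H.mul_mem ih (H.inv_mem hU)
  -- an upper triangular element with upper left entry `1/q`
  obtain ⟨b, a, hba⟩ : ∃ b a : ℤ, ((q : ℤ) + N) * b - (q * N) * a = 1 := by
    have h1 : IsCoprime ((q : ℤ) + N) (q * N) := by
      refine IsCoprime.mul_right ?_ ?_
      · simpa [add_comm] using (hcop.symm.add_mul_right_left 1)
      · simpa using (hcop.add_mul_right_left 1)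
    obtain ⟨b, a, h⟩ := h1
    exact ⟨b, -a, by linear_combination h⟩
  set γ : SL(2, ℤ) := ⟨!![(q : ℤ) + N, a; q * N, b], by
    rw [Matrix.det_fin_two_of]; linear_combination hba⟩ with hγ
  have hγN : γ ∈ Gamma0 N := by
    refine Gamma0_mem.mpr ((ZMod.intCast_zmod_eq_zero_iff_dvd _ _).mpr ?_)
    simp [hγ]
  have hlN : slMap (Int.castRingHom (Zq q)) (lwr (N : ℤ)) ∈ H :=
    hΓ _ (Gamma0_mem.mpr ((ZMod.intCast_zmod_eq_zero_iff_dvd _ _).mpr (by simp)))
  set t := (slMap (Int.castRingHom (Zq q)) γ)⁻¹ * (upr w * slMap (Int.castRingHom (Zq q)) (lwr (N : ℤ)))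
    with htdef
  have htH : t ∈ H := H.mul_mem (H.inv_mem (hΓ γ hγN)) (H.mul_mem hU hlN)
  set r : Zq q := (b : Zq q) * w - a with hr
  have hba' : ((q : Zq q) + N) * b - (q * N) * a = 1 := by
    have := congrArg (Int.cast : ℤ → Zq q) hba
    push_cast at this
    exact this
  have ht : t = upr (r * w) * dia (qUnit q)⁻¹ := by
    rw [htdef, inv_mul_eq_iff_eq_mul]
    apply sl_ext <;> simp [mul_apply00, mul_apply01, mul_apply10, mul_apply11, slMap_apply, hγ,
      ← hw, hr]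
    · linear_combination -hqw
    · linear_combination (-(w * b * ((q : Zq q) + N)) + a * (q + N) - N * a) * hqw - w * hba'
    · linear_combination (-(N : Zq q)) * hqw
    · linear_combination (-(b * (q : Zq q) * N * w) + q * N * a - b * N) * hqw - (1 : Zq q) * hba'
  have hconj : ∀ s : Zq q, upr s ∈ H → upr (s * w ^ 2) ∈ H := by
    intro s hs
    have e : upr (s * w ^ 2) = t * upr s * t⁻¹ := by
      rw [ht, eq_mul_inv_iff_mul_eq]
      apply sl_ext <;> simp [mul_apply00, mul_apply01, mul_apply10, mul_apply11, ← hw]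
      linear_combination (s * w) * hqw
    rw [e]; exact H.mul_mem (H.mul_mem htH hs) (H.inv_mem htH)
  have hpow : ∀ (j : ℕ) (k : ℤ), upr ((k : Zq q) * w ^ (2 * j + 1)) ∈ H := by
    intro j
    induction j with
    | zero => intro k; simpa using hintU k
    | succ j ih =>
      intro k
      have := hconj _ (ih k)
      rwa [mul_assoc, ← pow_add] at this
  have hupr : ∀ s : Zq q, upr s ∈ H := by
    intro s
    obtain ⟨k, n, hk⟩ := exists_mul_pow_eq_intCast s
    have e : s = ((k * (q : ℤ) ^ (n + 1) : ℤ) : Zq q) * w ^ (2 * n + 1) := by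
      push_cast
      rw [← hk]
      have h2 : ((q : Zq q) * w) ^ (2 * n + 1) = 1 := by rw [hqw, one_pow]
      linear_combination (-s) * h2
    rw [e]; exact hpow n _
  have hdia : dia (qUnit q) ∈ H := by
    have h1 : dia ((qUnit q)⁻¹ : (Zq q)ˣ) ∈ H := by
      have := H.mul_mem (H.inv_mem (hupr (r * w))) htH
      rwa [ht, inv_mul_cancel_left] at this
    have e : dia (qUnit q) = (dia ((qUnit q)⁻¹ : (Zq q)ˣ))⁻¹ := by
      show diaHom _ = (diaHom _)⁻¹
      rw [map_inv, inv_inv]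
    rw [e]; exact H.inv_mem h1
  intro g hg
  obtain ⟨z, hz⟩ : (N : Zq q) ∣ g 1 0 := hg
  obtain ⟨a0, n1, h0⟩ := exists_mul_pow_eq_intCast (g 0 0)
  obtain ⟨z0, n2, h1⟩ := exists_mul_pow_eq_intCast z
  set A0 : ℤ := a0 * q ^ n2
  set C0 : ℤ := N * (z0 * q ^ n1)
  have hA : g 0 0 * (q : Zq q) ^ (n1 + n2) = (A0 : Zq q) := by
    simp only [A0]; push_cast; rw [← h0]; ring
  have hC : g 1 0 * (q : Zq q) ^ (n1 + n2) = (C0 : Zq q) := by
    simp only [C0]; push_cast; rw [← h1, hz]; ring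
  -- the common divisor is a power of `q`
  obtain ⟨i, hi⟩ : ∃ i, Int.gcd A0 C0 = q ^ i := by
    set d := Int.gcd A0 C0
    obtain ⟨u, hu⟩ := Int.gcd_dvd_left A0 C0
    obtain ⟨v, hv⟩ := Int.gcd_dvd_right A0 C0
    have hdu : IsUnit ((d : ℤ) : Zq q) := by
      refine IsUnit.of_mul_eq_one
        ((((qUnit q)⁻¹ ^ (n1 + n2) : (Zq q)ˣ) : Zq q) * ((u : Zq q) * g 1 1 - (v : Zq q) * g 0 1)) ?_
      have hdet := det_eq g
      have hu' : g 0 0 * (q : Zq q) ^ (n1 + n2) = (d : Zq q) * u := by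
        rw [hA]; exact_mod_cast congrArg (Int.cast : ℤ → Zq q) hu
      have hv' : g 1 0 * (q : Zq q) ^ (n1 + n2) = (d : Zq q) * v := by
        rw [hC]; exact_mod_cast congrArg (Int.cast : ℤ → Zq q) hv
      rw [Units.val_pow_eq_pow_val, ← hw]
      have h2 : ((q : Zq q) * w) ^ (n1 + n2) = 1 := by rw [hqw, one_pow]
      push_cast
      linear_combination (-(w ^ (n1 + n2)) * g 1 1) * hu' + (w ^ (n1 + n2) * g 0 1) * hv' +
        (g 0 0 * g 1 1 - g 0 1 * g 1 0) * h2 + hdet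
    obtain ⟨e, he⟩ := hdu
    obtain ⟨c, m, hcm⟩ := exists_mul_pow_eq_intCast ((e⁻¹ : (Zq q)ˣ) : Zq q)
    have hdvd : (d : ℤ) * c = (q : ℤ) ^ m := by
      have h' : (((d : ℤ) * c : ℤ) : Zq q) = (((q : ℤ) ^ m : ℤ) : Zq q) := by
        push_cast
        rw [← hcm]
        have : (e : Zq q) = (d : Zq q) := by rw [he]; simp
        linear_combination (((e⁻¹ : (Zq q)ˣ) : Zq q) * (q : Zq q) ^ m) * (-this) +
          (q : Zq q) ^ m * (Units.mul_inv e)
      refine IsLocalization.injective (Zq q) (M := Submonoid.powers (q : ℤ)) ?_ ?_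
      · rintro _ ⟨j, rfl⟩
        exact mem_nonZeroDivisors_of_ne_zero (pow_ne_zero _ hqi.ne_zero)
      · simpa using h'
    have hd' : d ∣ q ^ m := by
      have : (d : ℤ) ∣ ((q ^ m : ℕ) : ℤ) := ⟨c, by push_cast; exact hdvd.symm⟩
      exact_mod_cast this
    obtain ⟨i, -, hi⟩ := (Nat.dvd_prime_pow hq).mp hd'
    exact ⟨i, hi⟩
  have hpos : 0 < Int.gcd A0 C0 := by rw [hi]; exact pow_pos hq.pos i
  obtain ⟨A1, hA1⟩ := Int.gcd_dvd_left A0 C0
  obtain ⟨C1, hC1⟩ := Int.gcd_dvd_right A0 C0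
  have hcop1 : IsCoprime A1 C1 := by
    rw [Int.isCoprime_iff_gcd_eq_one]
    have := Int.gcd_div_gcd_div_gcd hpos
    rwa [Int.ediv_eq_of_eq_mul_right (by omega) hA1, Int.ediv_eq_of_eq_mul_right (by omega) hC1] at this
  have hNC : (N : ℤ) ∣ C1 := by
    refine (hcop.symm.pow_right (n := i)).dvd_of_dvd_mul_left ?_
    have : (Int.gcd A0 C0 : ℤ) = (q : ℤ) ^ i := by rw [hi]; push_cast; rfl
    rw [← this, ← hC1]
    exact dvd_mul_right _ _
  obtain ⟨s, t', hst⟩ := hcop1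
  set γ' : SL(2, ℤ) := ⟨!![A1, -t'; C1, s], by rw [Matrix.det_fin_two_of]; linear_combination hst⟩
    with hγ'
  have hγ'H : slMap (Int.castRingHom (Zq q)) γ' ∈ H :=
    hΓ _ (Gamma0_mem.mpr ((ZMod.intCast_zmod_eq_zero_iff_dvd _ _).mpr (by simpa [hγ'] using hNC)))
  set D := dia (qUnit q) ^ (n1 + n2) * (dia (qUnit q) ^ i)⁻¹ with hD
  have hDH : D ∈ H := H.mul_mem (H.pow_mem hdia _) (H.inv_mem (H.pow_mem hdia _))
  have hDe : D = diaHom ((qUnit q) ^ (n1 + n2) * ((qUnit q) ^ i)⁻¹) := by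
    rw [hD, map_mul, map_inv, map_pow, map_pow]; rfl
  set rr := (slMap (Int.castRingHom (Zq q)) γ')⁻¹ * (g * D) with hrr
  have hcol : ∀ j, (g * D) j 0 = g j 0 * ((q : Zq q) ^ (n1 + n2) * w ^ i) := by
    intro j
    fin_cases j <;> simp [hDe, diaHom, mul_apply00, mul_apply10, ← hw]
  have hq1 : ((q : Zq q) * w) ^ i = 1 := by rw [hqw, one_pow]
  have hval : (g * D) 0 0 = (A1 : Zq q) ∧ (g * D) 1 0 = (C1 : Zq q) := by
    have e0 : (A0 : Zq q) = (q : Zq q) ^ i * A1 := by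
      have := congrArg (Int.cast : ℤ → Zq q) hA1
      push_cast at this; rw [this, hi]; push_cast; rfl
    have e1 : (C0 : Zq q) = (q : Zq q) ^ i * C1 := by
      have := congrArg (Int.cast : ℤ → Zq q) hC1
      push_cast at this; rw [this, hi]; push_cast; rfl
    constructor <;> rw [hcol]
    · linear_combination w ^ i * hA + w ^ i * e0 + (A1 : Zq q) * hq1
    · linear_combination w ^ i * hC + w ^ i * e1 + (C1 : Zq q) * hq1
  have hst' : (s : Zq q) * A1 + t' * C1 = 1 := by exact_mod_cast congrArg (Int.cast : ℤ → Zq q) hst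
  have r0 : rr 0 0 = 1 := by
    rw [hrr, mul_apply00, hval.1, hval.2, ← map_inv]
    simp [hγ', Matrix.adjugate_fin_two]
    linear_combination hst'
  have r1 : rr 1 0 = 0 := by
    rw [hrr, mul_apply10, hval.1, hval.2, ← map_inv]
    simp [hγ', Matrix.adjugate_fin_two]
    ring
  have r2 : rr = upr (rr 0 1) := by
    have := det_eq rr
    rw [r0, r1] at this
    apply sl_ext <;> simp [r0, r1]
    linear_combination this
  have : g = slMap (Int.castRingHom (Zq q)) γ' * rr * D⁻¹ := by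
    rw [hrr]; group
  rw [this, r2]
  exact H.mul_mem (H.mul_mem hγ'H (hupr _)) (H.inv_mem hDH)

/-- The constants of a quasi-invariant function for the big group vanish on a principal
congruence subgroup of `SL(2, ℤ)`. -/
theorem quasiHom_eq_one {p : ℕ} (hq : q.Prime) (hqN : ¬ q ∣ N) (hp : p.Prime) (hp2 : p ≠ 2)
    (hA : ∀ a : A, p • a = 0) (ψ : (Fin 2 → ℚ) → A)
    (hΓ : ∀ γ ∈ Gamma0 N, intSL γ ∈ quasiGroup ψ) (hU : upr ((q : ℚ)⁻¹) ∈ quasiGroup ψ)
    {γ : SL(2, ℤ)} (hγN : γ ∈ Gamma0 N)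
    (hγ : slMap (Int.castRingHom (ZMod (levelM q N))) γ = 1) :
    quasiHom ψ ⟨intSL γ, hΓ γ hγN⟩ = 1 := by
  have hN : N ≠ 0 := fun h0 => hqN (h0 ▸ dvd_zero q)
  have hle : gamma0Away q N ≤ (quasiGroup ψ).comap (slMap (zqToRat hq.ne_zero)) := by
    refine gamma0Away_le hq hqN _ (fun δ hδ => ?_) ?_
    · rw [Subgroup.mem_comap, slMap_zqToRat_intSL]; exact hΓ δ hδ
    · rw [Subgroup.mem_comap, slMap_upr, map_units_inv, qUnit_val, map_natCast]; exact hU
  let χ : gamma0Away q N →* Multiplicative A :=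
    (quasiHom ψ).comp
      ((slMap (zqToRat hq.ne_zero)).subgroupMap (gamma0Away q N) |>.comp (MonoidHom.id _) |>
        fun f => (Subgroup.inclusion (Subgroup.map_le_iff_le_comap.mpr hle)).comp f)
  have hχ : ∀ (g : gamma0Away q N), χ g =
      quasiHom ψ ⟨slMap (zqToRat hq.ne_zero) g, hle g.2⟩ := fun g => rfl
  have hmem : slMap (Int.castRingHom (Zq q)) γ ∈ congSub (coprime_levelM hq hqN) := by
    rw [congSub, MonoidHom.mem_ker, ← hγ]
    apply sl_ext <;> simp [slMap_apply]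
  have hC : ∀ c : Multiplicative A, c ^ p = 1 := fun c => by
    apply Multiplicative.toAdd.injective
    rw [toAdd_pow, toAdd_one, hA]
  have hunip : ∀ g t (h : g * upr t * g⁻¹ ∈ gamma0Away q N), χ ⟨g * upr t * g⁻¹, h⟩ = 1 := by
    intro g t h
    set G : SL(2, ℚ) := slMap (zqToRat hq.ne_zero) g
    have hfix : actS (upr (zqToRat hq.ne_zero t)) ![1, 0] = ![1, 0] := by
      ext i; fin_cases i <;> simp [actS, Matrix.mulVec, dotProduct, Fin.sum_univ_two]
    have hy : actS G ![1, 0] ≠ 0 := actS_ne_zero _ basisVec_ne_zero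
    have e := quasiHom_apply ψ ⟨_, hle h⟩ hy
    rw [← hχ ⟨_, h⟩] at e
    simp only [map_mul, map_inv, slMap_upr, actS_mul] at e
    rw [← actS_mul G⁻¹, inv_mul_cancel, actS_one, hfix] at e
    apply Multiplicative.toAdd.injective
    rw [toAdd_one]
    exact left_eq_add.mp e
  have := hom_trivial_on_congSub hq hN hqN hp hp2 hC χ hunip hmem
  rw [hχ] at this
  simpa [slMap_zqToRat_intSL] using this

end Away

end Fermat.Agent.LevelRaising
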